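/-
S36, block BP-INJ (architect helper128), node INJ-B (owner helper85): the hypotheses
`BAD.Inj.VertHyp` and `BAD.Inj.Chart` for the charts of the `Model`.
-/
import Mathlib
import Fermat.Agent.S18.Defs
import Fermat.Agent.S18.Chart.Overlap
import Fermat.Agent.S18.Abs.Bridge3
import Fermat.Agent.S36.BP.Defs
import Fermat.Agent.S36.BP.Base
import Fermat.Agent.S36.BP.Approx
import Fermat.Agent.S36.BP.LocQep
import Fermat.Agent.BAD.Inj.Core

set_option autoImplicit false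

noncomputable section

namespace Fermat.Agent.S36.BP

open Fermat.Agent.S18 Fermat.Agent.S18.Abs IntermediateField

variable {K₀ F : Type*} [Field K₀] [Field F] [Algebra K₀ F]
variable {A₀ : ValuationSubring K₀} {q : ℕ} {x : F} {V : Fin 3 → ValuationSubring F} {ϖm : F}
  {Eα Eβ : Subfield F} {Nα Nβ : F →* F}

omit [Field K₀] [Algebra K₀ F] in
/-- one vertical valuation: `π` has order `e` with `1 ≤ e ≤ E`. -/
theorem injB_vert_aux {W : ValuationSubring F} {ϖ π : F} (hU : IsUnif W ϖ) {e E : ℕ} (he : 1 ≤ e)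
    (heE : e ≤ E) (hπ : W.valuation ϖ ^ e = W.valuation π) (hπ0 : π ≠ 0) :
    π ∈ W.nonunits ∧ ∀ z ∈ W.nonunits, z ^ E / π ∈ W := by
  have hϖ : W.valuation ϖ < 1 := approx_val_unif_lt_one hU
  have hvπ0 : W.valuation π ≠ 0 := (Valuation.ne_zero_iff _).2 hπ0
  refine ⟨?_, fun z hz => ?_⟩
  · rw [ValuationSubring.mem_nonunits_iff, ← hπ]
    exact pow_lt_one₀ zero_le hϖ (by omega)
  · rw [ValuationSubring.mem_nonunits_iff] at hz
    have h1 : W.valuation z ≤ W.valuation ϖ := approx_val_le_unif hU hz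
    have h2 : W.valuation z ^ E ≤ W.valuation z ^ e := pow_le_pow_right_of_le_one' hz.le heE
    have h3 : W.valuation z ^ e ≤ W.valuation ϖ ^ e := pow_le_pow_left₀ zero_le h1 e
    rw [← ValuationSubring.valuation_le_one_iff, map_div₀, map_pow,
      div_le_one₀ (zero_lt_iff.2 hvπ0), ← hπ]
    exact h2.trans h3

theorem Model.injB_q_ne_zero (M : Model A₀ q x V ϖm Eα Eβ Nα Nβ) : (q : F) ≠ 0 := by
  have := M.base.charZero
  have : CharZero F := charZero_of_injective_algebraMap (algebraMap K₀ F).injective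
  exact Nat.cast_ne_zero.2 M.base.prime.ne_zero

theorem Model.injB_vert (M : Model A₀ q x V ϖm Eα Eβ Nα Nβ) (c : Fin 3) :
    (q : F) ∈ (V c).nonunits ∧ ∀ z ∈ (V c).nonunits, z ^ (q - 1) / (q : F) ∈ V c := by
  have hq2 : 2 ≤ q := M.base.prime.two_le
  have hq0 := M.injB_q_ne_zero
  fin_cases c
  · exact injB_vert_aux M.unif0 le_rfl (by omega) (pow_one _) hq0
  · exact injB_vert_aux M.unif1 (by omega) le_rfl M.ram1 hq0
  · exact injB_vert_aux M.unif2 le_rfl (by omega) (pow_one _) hq0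

theorem Model.vertHyp (M : Model A₀ q x V ϖm Eα Eβ Nα Nβ) :
    BAD.Inj.VertHyp V (q : F) (q - 1) :=
  ⟨M.injB_q_ne_zero, fun c => (M.injB_vert c).1, fun c => (M.injB_vert c).2⟩

theorem Model.injB_x_mem (M : Model A₀ q x V ϖm Eα Eβ Nα Nβ) (c : Fin 3) : x ∈ V c :=
  ((V c).valuation_le_one_iff x).mp (M.x_unit c).le

theorem Model.injB_x_inv_mem (M : Model A₀ q x V ϖm Eα Eβ Nα Nβ) (c : Fin 3) : x⁻¹ ∈ V c := by
  rw [← ValuationSubring.valuation_le_one_iff, map_inv₀, M.x_unit c, inv_one]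

theorem Model.injB_x_ne_zero (M : Model A₀ q x V ϖm Eα Eβ Nα Nβ) : x ≠ 0 := by
  intro h
  have h1 := M.x_unit 0
  rw [h, map_zero] at h1
  exact zero_ne_one h1

theorem Model.chartHyp (M : Model A₀ q x V ϖm Eα Eβ Nα Nβ) {n : ℕ} (hn : ¬ q ∣ n) :
    BAD.Inj.Chart V (q : F) n (chart A₀.toSubring x) := by
  have hn0 : 0 < n := Nat.pos_of_ne_zero (fun h => hn (h ▸ dvd_zero q))
  refine ⟨fun b hb i => LocQep.chart_le_of (M.const_mem i) (M.injB_x_mem i) b hb, natCast_mem _ q,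
    fun z hz h => M.qep₁ z h hz, fun y hy => ?_, ?_⟩
  · rw [mem_chart_iff_isIntegral] at hy ⊢
    exact IsIntegral.of_pow hn0 hy
  · have h1 : (n : K₀)⁻¹ ∈ A₀ := by
      rw [← ValuationSubring.valuation_le_one_iff, map_inv₀, M.base.natCast_unit hn, inv_one]
    have h2 : (n : F)⁻¹ = algebraMap K₀ F (n : K₀)⁻¹ := by
      rw [map_inv₀, map_natCast]
    rw [h2]
    exact map_le_chart A₀.toSubring ⟨(n : K₀)⁻¹, h1, rfl⟩

theorem Model.chartHyp_away (M : Model A₀ q x V ϖm Eα Eβ Nα Nβ) {n : ℕ} (hn : ¬ q ∣ n) :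
    BAD.Inj.Chart V (q : F) n
      (awaySubring (chart A₀.toSubring x) x (self_mem_chart A₀.toSubring)) := by
  have hn0 : 0 < n := Nat.pos_of_ne_zero (fun h => hn (h ▸ dvd_zero q))
  have hB := M.chartHyp hn
  have hx0 := M.injB_x_ne_zero
  have hxB : x ∈ chart A₀.toSubring x := self_mem_chart A₀.toSubring
  refine ⟨?_, le_awaySubring₁ _ _ _ hB.pi_mem, ?_, ?_, le_awaySubring₁ _ _ _ hB.minv⟩
  · rintro y ⟨N, hN⟩ i
    have : y = x⁻¹ ^ N * (x ^ N * y) := by
      rw [inv_pow]; field_simp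
    rw [this]
    exact (V i).mul_mem _ _ ((V i).pow_mem (M.injB_x_inv_mem i) _) (hB.le _ hN i)
  · rintro z hz ⟨N, hN⟩
    refine ⟨N, hB.qep _ (fun i => (V i).mul_mem _ _ ((V i).pow_mem (M.injB_x_mem i) _) (hz i)) ?_⟩
    have e : (q : F) * (x ^ N * z) = x ^ N * ((q : F) * z) := by ring
    rw [e]
    exact hN
  · rintro y ⟨N, hN⟩
    refine ⟨N, hB.root _ ?_⟩
    obtain ⟨k, rfl⟩ : ∃ k, n = k + 1 := ⟨n - 1, by omega⟩
    have : (x ^ N * y) ^ (k + 1) = (x ^ N) ^ k * (x ^ N * y ^ (k + 1)) := by ring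
    rw [this]
    exact Subring.mul_mem _ (Subring.pow_mem _ (Subring.pow_mem _ hxB _) _) hN

end Fermat.Agent.S36.BP
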