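/-
S36, block BP-INJ, node INJ-A (owner helper217): `Model.isCover`, the two charts of a `Model` form
a cover in the sense of `S18.IsCover`.
-/
import Mathlib
import Fermat.Agent.S18.Defs
import Fermat.Agent.S18.Chart.Overlap
import Fermat.Agent.S18.Chart.Finite
import Fermat.Agent.S36.BP.Defs
import Fermat.Agent.S36.BP.Symm
import Fermat.Agent.S36.BP.Loc.Noeth

set_option autoImplicit false

noncomputable section

namespace Fermat.Agent.S36.BP

open Fermat.Agent.S18 IntermediateField

variable {K₀ F : Type*} [Field K₀] [Field F] [Algebra K₀ F]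
variable {A₀ : ValuationSubring K₀} {q : ℕ} {x : F} {V : Fin 3 → ValuationSubring F} {ϖm : F}
  {Eα Eβ : Subfield F} {Nα Nβ : F →* F}

/-- the chart is a finite module over `A₀[x]`, with generators in the chart. -/
theorem chart_fin_of_transc [CharZero K₀] {ϖ₀ : K₀} (h₀ : IsUnif A₀ ϖ₀)
    (hx : Transcendental K₀ x) (hfin : FiniteDimensional K₀⟮x⟯ F) :
    ∃ S : Finset F, (∀ e ∈ S, e ∈ chart A₀.toSubring x) ∧
      ∀ b ∈ chart A₀.toSubring x, b ∈ Submodule.span (A₀.toSubring.map (algebraMap K₀ F))
        {y : F | ∃ (a : ℕ) (e : F), e ∈ S ∧ y = x ^ a * e} := by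
  classical
  have hf := (finite_and_noeth_integralClosure h₀ hx hfin).1
  obtain ⟨s, hs⟩ := hf.fg_top
  refine ⟨s.image Subtype.val, ?_, fun b hb => ?_⟩
  · intro e he
    obtain ⟨e', -, rfl⟩ := Finset.mem_image.mp he
    exact e'.2
  · apply ChartFinite.mem_span_pow_mul'
    have hmem : (⟨b, hb⟩ : integralClosure (polyRing A₀.toSubring x) F) ∈
        Submodule.span (polyRing A₀.toSubring x)
          (s : Set (integralClosure (polyRing A₀.toSubring x) F)) := hs ▸ Submodule.mem_top
    have key : ∀ z : integralClosure (polyRing A₀.toSubring x) F,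
        z ∈ Submodule.span (polyRing A₀.toSubring x)
          (s : Set (integralClosure (polyRing A₀.toSubring x) F)) →
        (z : F) ∈ Submodule.span (polyRing A₀.toSubring x)
          ((s.image Subtype.val : Finset F) : Set F) := by
      intro z hz
      induction hz using Submodule.span_induction with
      | mem e he => exact Submodule.subset_span (by simpa using he)
      | zero => exact Submodule.zero_mem _
      | add a b _ _ ha hb => exact Submodule.add_mem _ ha hb
      | smul r z _ hz => exact Submodule.smul_mem _ r hz
    exact key _ hmem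

theorem Model.isCover (M : Model A₀ q x V ϖm Eα Eβ Nα Nβ) :
    IsCover (A₀.toSubring.map (algebraMap K₀ F)) x (chart A₀.toSubring x)
      (chart A₀.toSubring x⁻¹) := by
  have := M.base.charZero
  have hx0 : x ≠ 0 := fun h => M.transc (h ▸ isAlgebraic_zero)
  exact
    { noeth := isNoetherianRing_map M.base.unif
      le₁ := map_le_chart _
      le₂ := map_le_chart _
      x_ne := hx0
      x_mem := self_mem_chart _
      inv_mem := self_mem_chart _
      fin₁ := chart_fin_of_transc M.base.unif M.transc M.finite
      fin₂ := chart_fin_of_transc M.base.unif M.inv.transc M.inv.finite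
      overlap₁ := chart_overlap _ hx0
      overlap₂ := by
        have := chart_overlap (x := x⁻¹) A₀.toSubring (inv_ne_zero hx0)
        simpa using this }

end Fermat.Agent.S36.BP

end
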