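/-
S36, block BP-INJ, node D (helper128): trivial gluing data at all closed points of a chart of the
`Model` give the hypothesis `BAD.Inj.LocTriv`.
-/
import Mathlib
import Fermat.Agent.S18.Defs
import Fermat.Agent.S18.Chart.Overlap
import Fermat.Agent.S36.BP.Defs
import Fermat.Agent.S36.BP.Base
import Fermat.Agent.S36.BP.Approx
import Fermat.Agent.S36.BP.LocQep
import Fermat.Agent.S36.BP.Loc.Basic
import Fermat.Agent.S36.BP.Loc.Noeth
import Fermat.Agent.BAD.Inj.Core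
import Fermat.Agent.BAD.Inj.LocalPir

set_option autoImplicit false

noncomputable section

namespace Fermat.Agent.S36.BP

open Fermat.Agent.S18 IntermediateField IsLocalRing

section General

variable {F : Type*} [Field F]

theorem isUnit_iff_rUnit_inj {R : Subring F} (r : R) : IsUnit r ↔ RUnit R (r : F) := by
  constructor
  · rintro ⟨a, rfl⟩
    have h1 : ((a : R) : F) * ((↑a⁻¹ : R) : F) = 1 := congrArg Subtype.val a.mul_inv
    have h0 : ((a : R) : F) ≠ 0 := left_ne_zero_of_mul_eq_one h1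
    refine ⟨h0, (a : R).2, ?_⟩
    rw [← eq_inv_of_mul_eq_one_right h1]
    exact (↑a⁻¹ : R).2
  · rintro ⟨h0, -, hinv⟩
    exact IsUnit.of_mul_eq_one ⟨_, hinv⟩ (Subtype.ext (mul_inv_cancel₀ h0))

theorem mem_maximalIdeal_iff_mem_rad {R : Subring F} [IsLocalRing R] (r : R) :
    r ∈ maximalIdeal R ↔ (r : F) ∈ rad R := by
  rw [mem_maximalIdeal, mem_nonunits_iff, isUnit_iff_rUnit_inj]
  exact ⟨fun h => ⟨r.2, h⟩, fun h => h.2⟩

theorem isLocAt_locSub (B : Subring F) (𝔫 : Ideal B) [𝔫.IsPrime] :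
    BAD.Inj.IsLocAt B 𝔫 (locSub B 𝔫) where
  le := le_locSub
  frac := by
    rintro r ⟨a, s, hs, e⟩
    exact ⟨s, hs, e ▸ a.2⟩
  inv := fun _ hs => inv_mem_locSub hs

theorem isLocalRing_locSub (B : Subring F) (𝔫 : Ideal B) [𝔫.IsPrime] :
    IsLocalRing (locSub B 𝔫) := by
  let _ : Algebra B (locSub B 𝔫) := (Subring.inclusion (isLocAt_locSub B 𝔫).le).toAlgebra
  have : IsLocalization.AtPrime (locSub B 𝔫) 𝔫 := (isLocAt_locSub B 𝔫).isLocalization
  exact IsLocalization.AtPrime.isLocalRing (locSub B 𝔫) 𝔫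

/-- a component containing `R` is not away from `R`. -/
theorem not_away_of_le {R : Subring F} {W : ValuationSubring F} (h : R ≤ W.toSubring) :
    ¬ Away R W := by
  rintro ⟨e, ⟨he0, -, hinv⟩, hlt⟩
  have h1 : W.valuation e⁻¹ ≤ 1 := (W.valuation_le_one_iff _).2 (h hinv)
  rw [map_inv₀] at h1
  have h2 : W.valuation e ≠ 0 := (Valuation.ne_zero_iff _).2 he0
  exact absurd hlt (not_lt.2 ((inv_le_one₀ (zero_lt_iff.2 h2)).1 h1))

/-- the local ring of a component through a noetherian point is a principal ideal ring. -/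
theorem Through.isPrincipalIdealRing {R : Subring F} [IsLocalRing R] [IsNoetherianRing R]
    {W : ValuationSubring F} (hT : Through R W) (hRW : R ≤ W.toSubring) :
    IsPrincipalIdealRing (R ⧸ BAD.Inj.vertIdeal W R (BAD.Inj.algebraMap_subring_mem hRW)) := by
  obtain ⟨t, ht, hgen⟩ := hT.dvr
  refine BAD.Inj.isPrincipalIdealRing_quotient_of_gen hRW ⟨t, ht.1⟩
    ((mem_maximalIdeal_iff_mem_rad _).2 ht) (fun y hy => ?_)
  obtain ⟨r, hr, h⟩ := hgen y ((mem_maximalIdeal_iff_mem_rad y).1 hy)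
  exact ⟨⟨r, hr⟩, W.mem_nonunits_iff.2 h⟩

end General

variable {K₀ F : Type*} [Field K₀] [Field F] [Algebra K₀ F]
variable {A₀ : ValuationSubring K₀} {q : ℕ} {x : F} {V : Fin 3 → ValuationSubring F} {ϖm : F}
  {Eα Eβ : Subfield F} {Nα Nβ : F →* F}

theorem Model.exists_unif (M : Model A₀ q x V ϖm Eα Eβ Nα Nβ) :
    ∃ ϖ : Fin 3 → F, ∀ c, IsUnif (V c) (ϖ c) := by
  refine ⟨![(q : F), ϖm, (q : F)], fun c => ?_⟩
  fin_cases c
  · exact M.unif0
  · exact M.unif1
  · exact M.unif2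

/-- the centres of two distinct components through a point are incomparable. -/
theorem Model.exists_sep (M : Model A₀ q x V ϖm Eα Eβ Nα Nβ) {R : Subring F} {i j : Fin 3}
    (hi : Through R (V i)) (hj : R ≤ (V j).toSubring) (hij : i ≠ j) :
    ∃ r ∈ R, r ∈ (V j).nonunits ∧ r ∉ (V i).nonunits := by
  obtain ⟨ϖ, hU⟩ := M.exists_unif
  obtain ⟨h, -, hh⟩ := exists_prescribed_orders V ϖ hU M.inj (fun c => if c = j then 1 else 0)
  have hhi : (V i).valuation h = 1 := by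
    have := hh i
    simpa [hij] using this
  have hhj : (V j).valuation h < 1 := by
    have := hh j
    simp only [if_true, zpow_one] at this
    rw [this]
    exact approx_val_unif_lt_one (hU j)
  obtain ⟨s, hs, hs1, hsh⟩ := hi.loc h ((V i).valuation_le_one_iff _ |>.1 hhi.le)
  refine ⟨s * h, hsh, ?_, ?_⟩
  · exact BAD.Inj.mul_mem_nonunits _ (hj hs) ((V j).mem_nonunits_iff.2 hhj)
  · rw [(V i).mem_nonunits_iff, map_mul, hs1, hhi, one_mul]
    exact lt_irrefl _

theorem Model.natCast_inv_mem_chart (M : Model A₀ q x V ϖm Eα Eβ Nα Nβ) {n : ℕ} (hn : ¬ q ∣ n) :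
    (n : F)⁻¹ ∈ chart A₀.toSubring x := by
  have h1 : A₀.valuation (n : K₀) = 1 := M.base.natCast_unit hn
  have h2 : (n : K₀)⁻¹ ∈ A₀ := BAD.Inj.inv_mem_of_valuation_eq_one _ h1
  have h3 : (n : F)⁻¹ = algebraMap K₀ F (n : K₀)⁻¹ := by rw [map_inv₀, map_natCast]
  rw [h3]
  exact map_le_chart A₀.toSubring ⟨_, h2, rfl⟩

theorem Model.locTriv (M : Model A₀ q x V ϖm Eα Eβ Nα Nβ) {n : ℕ} (hn : ¬ q ∣ n) {u : F}
    {lam : Fin 3 → F} (H : BAD.Inj.ResRoot V lam n u)
    (h₁ : ∀ (𝔫 : Ideal (chart A₀.toSubring x)) [𝔫.IsMaximal], (q : chart A₀.toSubring x) ∈ 𝔫 →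
      TrivDatum V (locSub (chart A₀.toSubring x) 𝔫) n u lam) (hq : (q : F) ∈ chart A₀.toSubring x) :
    BAD.Inj.LocTriv V lam n u (chart A₀.toSubring x) ⟨(q : F), hq⟩ := by
  intro 𝔫 h𝔫max hq𝔫
  have hpr : 𝔫.IsPrime := h𝔫max.isPrime
  have hn0 : 0 < n := Nat.pos_of_ne_zero (fun h => hn (h ▸ dvd_zero q))
  have := M.base.charZero
  have : CharZero F := charZero_of_injective_algebraMap (algebraMap K₀ F).injective
  have hnF : (n : F) ≠ 0 := Nat.cast_ne_zero.2 hn0.ne'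
  have hq𝔫' : (q : chart A₀.toSubring x) ∈ 𝔫 := by
    have : (q : chart A₀.toSubring x) = ⟨(q : F), hq⟩ := Subtype.ext (by simp)
    rw [this]; exact hq𝔫
  obtain ⟨g, hgu, hval⟩ := h₁ 𝔫 hq𝔫'
  have hPt := M.pts₁ 𝔫 hq𝔫'
  have hBv : ∀ b ∈ chart A₀.toSubring x, ∀ c, b ∈ V c := fun b hb c =>
    LocQep.chart_le_of (M.const_mem c)
      ((ValuationSubring.valuation_le_one_iff _ _).1 (M.x_unit c).le) b hb
  have : IsLocalRing (locSub (chart A₀.toSubring x) 𝔫) := isLocalRing_locSub _ 𝔫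
  have : IsNoetherianRing (chart A₀.toSubring x) :=
    isNoetherianRing_chart M.base.unif M.transc M.finite
  have : IsNoetherianRing (locSub (chart A₀.toSubring x) 𝔫) := isNoetherianRing_locSub
  have hthr : ∀ c, locSub (chart A₀.toSubring x) 𝔫 ≤ (V c).toSubring →
      Through (locSub (chart A₀.toSubring x) 𝔫) (V c) := fun c hc =>
    (hPt.through_or_away c).resolve_right (not_away_of_le hc)
  refine BAD.Inj.locTriv_at_of_pir hBv hn0 H 𝔫 (locSub (chart A₀.toSubring x) 𝔫)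
    (isLocAt_locSub _ 𝔫) ?_ (fun c hc => (hthr c hc).isPrincipalIdealRing hc)
    (fun i j hi hj hij => M.exists_sep (hthr i hi) hj hij) g ⟨g ^ n * u, hgu.2.1⟩
    ((isUnit_iff_rUnit_inj _).2 hgu) rfl 1 (fun c hc => ?_)
  · rw [isUnit_iff_rUnit_inj]
    refine ⟨by simpa using hnF, Subtype.mem _, ?_⟩
    have : (((n : ℕ) : locSub (chart A₀.toSubring x) 𝔫) : F) = (n : F) := by simp
    rw [this]
    exact le_locSub (M.natCast_inv_mem_chart hn)
  · obtain ⟨r, hr, h1, h2⟩ := hval c (hthr c hc)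
    refine ⟨⟨r, hr⟩, ?_, (mem_maximalIdeal_iff_mem_rad _).2 h2⟩
    have hl0 := BAD.Inj.ne_zero_of_valuation_eq_one _ (H.unit c)
    have : g - lam c * r = lam c * (g / lam c - r) := by field_simp
    show g - lam c * r ∈ (V c).nonunits
    rw [this]
    exact BAD.Inj.mul_mem_nonunits _ (BAD.Inj.mem_of_valuation_eq_one _ (H.unit c))
      ((V c).mem_nonunits_iff.2 h1)

end Fermat.Agent.S36.BP
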