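/-
S36, block BP-INJ, node INJ-C (owner helper116): bounded `q`-torsion of the Cech `H¹` of the root
modules, from `BAD/Glue/Cech`.  This file: the form with `IsCover` as an explicit hypothesis.
-/
import Mathlib
import Fermat.Agent.S18.Defs
import Fermat.Agent.S18.Abs.Bridge3
import Fermat.Agent.BAD.Glue.Cech

set_option autoImplicit false

noncomputable section

namespace Fermat.Agent.S36.BP

open Fermat.Agent.S18 Fermat.Agent.S18.Abs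

theorem tors_of_isCover {F : Type*} [Field F] {A B₁ B₂ : Subring F} {x : F}
    (hc : IsCover A x B₁ B₂) (hx : x ∈ B₁) {ϖ : F} (hϖ : ϖ ∈ A) {n : ℕ} (hn0 : 0 < n) {u : F}
    (hu0 : u ≠ 0) (hne : ∃ a : F, a ≠ 0 ∧ a ^ n * u ∈ B₁)
    (hr1 : ∀ y : F, y ^ n ∈ B₁ → y ∈ B₁) (hr2 : ∀ y : F, y ^ n ∈ B₂ → y ∈ B₂)
    (hr12 : ∀ y : F, y ^ n ∈ awaySubring B₁ x hx → y ∈ awaySubring B₁ x hx) :
    ∃ k0 : ℕ, ∀ y ∈ rootGroup (awaySubring B₁ x hx) n hn0 hr12 u, ∀ k : ℕ,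
      ϖ ^ k * y ∈ rootGroup B₁ n hn0 hr1 u ⊔ rootGroup B₂ n hn0 hr2 u →
      ϖ ^ k0 * y ∈ rootGroup B₁ n hn0 hr1 u ⊔ rootGroup B₂ n hn0 hr2 u := by
  obtain ⟨k0, hk0⟩ := BAD.Glue.exists_torsion_bound_root hc hn0 hr1 hr2 hϖ hne hu0
  refine ⟨k0, fun y hy k hk => ?_⟩
  obtain ⟨y₁, hy₁, y₂, hy₂, hsum⟩ := AddSubgroup.mem_sup.1 hk
  obtain ⟨z₁, z₂, hz₁, hz₂, hz⟩ := hk0 y hy k ⟨y₁, y₂, hy₁, hy₂, hsum.symm⟩
  exact AddSubgroup.mem_sup.2 ⟨z₁, hz₁, z₂, hz₂, hz.symm⟩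

end Fermat.Agent.S36.BP
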