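/-
S36, block BP-INJ, node INJ-C (owner helper116): `Model.tors`, bounded `q`-torsion of the Cech `H¹`
of the root modules on the two charts of the model.
-/
import Mathlib
import Fermat.Agent.S18.Defs
import Fermat.Agent.S18.Chart.Overlap
import Fermat.Agent.S18.Abs.Bridge3
import Fermat.Agent.S36.BP.Defs
import Fermat.Agent.S36.BP.Inj.Cover
import Fermat.Agent.S36.BP.Inj.TorsAux

set_option autoImplicit false

noncomputable section

namespace Fermat.Agent.S36.BP

open Fermat.Agent.S18 Fermat.Agent.S18.Abs IntermediateField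

variable {K₀ F : Type*} [Field K₀] [Field F] [Algebra K₀ F]
variable {A₀ : ValuationSubring K₀} {q : ℕ} {x : F} {V : Fin 3 → ValuationSubring F} {ϖm : F}
  {Eα Eβ : Subfield F} {Nα Nβ : F →* F}

theorem Model.tors (M : Model A₀ q x V ϖm Eα Eβ Nα Nβ) {n : ℕ} (hn0 : 0 < n) {u : F}
    (hu0 : u ≠ 0) (hne : ∃ a : F, a ≠ 0 ∧ a ^ n * u ∈ chart A₀.toSubring x)
    (hr1 : ∀ y : F, y ^ n ∈ chart A₀.toSubring x → y ∈ chart A₀.toSubring x)
    (hr2 : ∀ y : F, y ^ n ∈ chart A₀.toSubring x⁻¹ → y ∈ chart A₀.toSubring x⁻¹)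
    (hr12 : ∀ y : F, y ^ n ∈ awaySubring (chart A₀.toSubring x) x (self_mem_chart A₀.toSubring) →
      y ∈ awaySubring (chart A₀.toSubring x) x (self_mem_chart A₀.toSubring)) :
    ∃ k0 : ℕ, ∀ y ∈ rootGroup (awaySubring (chart A₀.toSubring x) x (self_mem_chart A₀.toSubring))
        n hn0 hr12 u, ∀ k : ℕ,
      (q : F) ^ k * y ∈ rootGroup (chart A₀.toSubring x) n hn0 hr1 u ⊔
        rootGroup (chart A₀.toSubring x⁻¹) n hn0 hr2 u →
      (q : F) ^ k0 * y ∈ rootGroup (chart A₀.toSubring x) n hn0 hr1 u ⊔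
        rootGroup (chart A₀.toSubring x⁻¹) n hn0 hr2 u :=
  tors_of_isCover M.isCover (self_mem_chart A₀.toSubring)
    ⟨(q : K₀), natCast_mem A₀.toSubring q, map_natCast _ q⟩ hn0 hu0 hne hr1 hr2 hr12

end Fermat.Agent.S36.BP
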